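import Fermat.Agent.EulerFraction.Integrals
import Fermat.Agent.PeriodicFractions.SquareRoot
import Mathlib.NumberTheory.Transcendental.Liouville.LiouvilleWith
import Mathlib.Analysis.SpecialFunctions.Pow.Real

/-!
# Digits and approximation

For an irrational `x` and `q ≥ 1` there is an `n` with `2 ^ (n / 2) ≤ 2 q` such that
`|q x - p| ≥ 1 / (4 q (a + 1))`, `a` being the digit after the `n`-th: hence `x` is badly
approximable iff its digits are bounded, and `e` has irrationality exponent two.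
-/

set_option autoImplicit false

noncomputable section

open Real
open FA.PeriodicFractions

namespace FA.EulerFraction

variable {x : ℝ}

/-- The continuants after the first step, with the error of the convergent. -/
theorem contin_error (hx : Irrational x) (n : ℕ) : ∃ P P' Q Q' : ℤ,
    contin x (n + 1) = (P, P', Q, Q') ∧ contin x (n + 2) =
      (P * digit x (n + 1) + P', P, Q * digit x (n + 1) + Q', Q) ∧
    0 < Q ∧ 0 ≤ Q' ∧ Q' ≤ Q ∧ |P * Q' - P' * Q| = 1 ∧
    |x * Q - P| * ((Q : ℝ) * cq x (n + 1) + Q') = 1 := by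
  obtain ⟨P, P', Q, Q', he, hrel, hdet, hQ', hQ⟩ := contin_spec hx (n + 1)
  obtain ⟨hQ0, hQQ⟩ := hQ.resolve_left n.succ_ne_zero
  refine ⟨P, P', Q, Q', he, by rw [contin, he], hQ0, hQ', hQQ, hdet, ?_⟩
  have h1 : (0 : ℝ) < Q := Int.cast_pos.2 hQ0
  have h2 : (0 : ℝ) ≤ Q' := Int.cast_nonneg hQ'
  have hdet' : |(P : ℝ) * Q' - P' * Q| = 1 := by exact_mod_cast hdet
  have hu := zero_lt_one.trans (one_lt_cq hx n)
  rw [← hdet', ← abs_neg ((P : ℝ) * Q' - P' * Q),
    ← abs_of_pos (show (0 : ℝ) < (Q : ℝ) * cq x (n + 1) + Q' by positivity), ← abs_mul]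
  congr 1
  linear_combination (Q : ℝ) * hrel

/-- The denominators double in two steps. -/
theorem two_pow_le_den (hx : Irrational x) :
    ∀ j : ℕ, 2 ^ j ≤ (contin x (2 * j + 1)).2.2.1 := by
  intro j
  induction j with
  | zero => simp [contin]
  | succ j ih =>
    obtain ⟨P, P', Q, Q', he, he', hQ, hQ', -, -, -⟩ := contin_error hx (2 * j)
    obtain ⟨S, S', R, R', hf, hf', hR, -, -, -, -⟩ := contin_error hx (2 * j + 1)
    rw [he] at ih
    rw [hf] at he'
    simp only [Prod.mk.injEq] at he'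
    obtain ⟨-, -, hRq, hRq'⟩ := he'
    subst hRq hRq'
    rw [show 2 * (j + 1) + 1 = 2 * j + 1 + 2 by ring, hf', pow_succ]
    simp only
    have d1 := le_mul_of_one_le_right hQ.le (one_le_digit hx (2 * j))
    have d2 := le_mul_of_one_le_right hR.le (one_le_digit hx (2 * j + 1))
    linarith

/-- **The approximation by a given denominator.** -/
theorem exists_index_bound (hx : Irrational x) {q : ℕ} (hq : 0 < q) (p : ℤ) :
    ∃ n : ℕ, 2 ^ (n / 2) ≤ 2 * q ∧
      1 ≤ 4 * (q : ℝ) * (digit x (n + 1) + 1) * |q * x - p| := by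
  have hex : ∃ n : ℕ, 2 * (q : ℤ) < (contin x (n + 2)).2.2.1 := by
    refine ⟨2 * q, ?_⟩
    obtain ⟨P, P', Q, Q', he⟩ : ∃ P P' Q Q' : ℤ, contin x (2 * q + 2) = (P, P', Q, Q') :=
      ⟨_, _, _, _, rfl⟩
    have := (contin_growth hx (2 * q) he).2.2.2
    rw [he]
    push_cast at this
    simp only
    linarith
  obtain ⟨n, hn, hmin⟩ : ∃ n : ℕ, 2 * (q : ℤ) < (contin x (n + 2)).2.2.1 ∧
      ∀ m < n, (contin x (m + 2)).2.2.1 ≤ 2 * q :=
    ⟨Nat.find hex, Nat.find_spec hex, fun m hm => not_lt.1 (Nat.find_min hex hm)⟩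
  obtain ⟨P, P', Q, Q', he, he', hQ, hQ', hQQ, hdet, herr⟩ := contin_error hx n
  rw [he'] at hn
  simp only at hn
  have hQ2 : Q ≤ 2 * q := by
    rcases n with _ | m
    · simp only [contin, Prod.mk.injEq] at he
      omega
    · have := hmin m m.lt_succ_self
      rwa [show m + 2 = m + 1 + 1 by ring, he] at this
  refine ⟨n, ?_, ?_⟩
  · have h1 := two_pow_le_den hx (n / 2)
    have h2 := contin_den_mono hx (2 * (n / 2)) (n % 2)
    rw [show 2 * (n / 2) + 1 + n % 2 = n + 1 by omega] at h2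
    rw [he] at h2
    exact_mod_cast (h1.trans h2).trans hQ2
  have ha : (1 : ℝ) ≤ digit x (n + 1) := by exact_mod_cast one_le_digit hx n
  have hu1 : (digit x (n + 1) : ℝ) ≤ cq x (n + 1) := Int.floor_le _
  have hu2 : cq x (n + 1) ≤ digit x (n + 1) + 1 := (Int.lt_floor_add_one _).le
  have cQ : (0 : ℝ) < Q := Int.cast_pos.2 hQ
  have cQ' : (0 : ℝ) ≤ Q' := Int.cast_nonneg hQ'
  have cQQ : (Q' : ℝ) ≤ Q := Int.cast_le.2 hQQ
  have cQ2 : (Q : ℝ) ≤ 2 * q := by exact_mod_cast hQ2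
  have cn : 2 * (q : ℝ) < Q * digit x (n + 1) + Q' := by exact_mod_cast hn
  have hq0 : (0 : ℝ) < q := Nat.cast_pos.2 hq
  set a := (digit x (n + 1) : ℝ)
  set u := cq x (n + 1)
  set err := |x * Q - P|
  have herr0 : 0 ≤ err := abs_nonneg _
  by_cases hp : p * Q = q * P
  · obtain ⟨t, ht⟩ : Q ∣ (q : ℤ) := by
      have hdvd : Q ∣ q * (P * Q' - P' * Q) :=
        ⟨p * Q' - q * P', by linear_combination -Q' * hp⟩
      rwa [← dvd_abs, abs_mul, hdet, mul_one, dvd_abs] at hdvd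
    obtain rfl : p = P * t := by
      refine mul_right_cancel₀ hQ.ne' ?_
      rw [hp, ht]
      ring
    have ht1 : 1 ≤ t := by
      by_contra! hlt
      nlinarith
    have ht' : (q : ℝ) = Q * t := by exact_mod_cast ht
    have : |(q : ℝ) * x - (P * t : ℤ)| = t * err := by
      rw [← abs_of_nonneg (show (0 : ℝ) ≤ t by exact_mod_cast zero_le_one.trans ht1), ← abs_mul,
        ht']
      push_cast
      ring_nf
    rw [this]
    have : err ≤ t * err := le_mul_of_one_le_left herr0 (by exact_mod_cast ht1)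
    have hb : (Q : ℝ) * u + Q' ≤ 4 * q * (a + 1) := by nlinarith
    have e1 := mul_le_mul_of_nonneg_left hb herr0
    have e2 := mul_le_mul_of_nonneg_left ‹err ≤ t * err›
      (show (0 : ℝ) ≤ 4 * q * (a + 1) by positivity)
    linarith
  · have h1 : (1 : ℝ) ≤ |((p * Q - q * P : ℤ) : ℝ)| := by
      exact_mod_cast Int.one_le_abs (sub_ne_zero.2 hp)
    have h2 : |((p * Q - q * P : ℤ) : ℝ)| ≤ Q * |q * x - p| + q * err := by
      rw [show ((p * Q - q * P : ℤ) : ℝ) = -(Q * (q * x - p)) + q * (x * Q - P) by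
        push_cast; ring]
      exact (abs_add_le _ _).trans_eq
        (by rw [abs_neg, abs_mul, abs_mul, abs_of_pos cQ, abs_of_pos hq0])
    have h3 : 2 * (q : ℝ) * err ≤ 1 := by
      rw [← herr, mul_comm err]
      refine mul_le_mul_of_nonneg_right ?_ herr0
      nlinarith
    have hX := abs_nonneg ((q : ℝ) * x - p)
    have e1 := mul_le_mul_of_nonneg_right cQ2 hX
    have e2 : (0 : ℝ) ≤ q * a * |(q : ℝ) * x - p| := by positivity
    linarith

/-- A large digit gives a good approximation. -/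
theorem exists_good_approx (hx : Irrational x) (n : ℕ) : ∃ (p : ℤ) (q : ℕ), 0 < q ∧
    (digit x (n + 1) : ℝ) * (q : ℝ) ^ 2 * |x - p / q| ≤ 1 := by
  obtain ⟨P, P', Q, Q', -, -, hQ, hQ', -, -, herr⟩ := contin_error hx n
  obtain ⟨q, rfl⟩ : ∃ q : ℕ, Q = q := ⟨Q.toNat, (Int.toNat_of_nonneg hQ.le).symm⟩
  have hq : 0 < q := by exact_mod_cast hQ
  rw [Int.cast_natCast] at herr
  have cq0 : (0 : ℝ) < q := Nat.cast_pos.2 hq
  refine ⟨P, q, hq, ?_⟩
  rw [sub_div' cq0.ne', abs_div, abs_of_pos cq0]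
  have hu1 : (digit x (n + 1) : ℝ) ≤ cq x (n + 1) := Int.floor_le _
  have cQ' : (0 : ℝ) ≤ Q' := Int.cast_nonneg hQ'
  calc (digit x (n + 1) : ℝ) * (q : ℝ) ^ 2 * (|x * q - P| / q)
      = |x * q - P| * (q * digit x (n + 1)) := by field_simp
    _ ≤ |x * q - P| * (q * cq x (n + 1) + Q') :=
        mul_le_mul_of_nonneg_left (by nlinarith) (abs_nonneg _)
    _ = 1 := herr

/-- **Badly approximable numbers are those with bounded digits.** -/
theorem badly_approximable_iff (hx : Irrational x) :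
    (∃ C : ℝ, 0 < C ∧ ∀ (p : ℤ) (q : ℕ), 0 < q → C / (q : ℝ) ^ 2 ≤ |x - p / q|) ↔
      ∃ M : ℤ, ∀ n, digit x (n + 1) ≤ M := by
  constructor
  · rintro ⟨C, hC, h⟩
    obtain ⟨M, hM⟩ := exists_int_gt (1 / C)
    refine ⟨M, fun n => ?_⟩
    obtain ⟨p, q, hq, hle⟩ := exists_good_approx hx n
    have hq0 : (0 : ℝ) < (q : ℝ) ^ 2 := pow_pos (Nat.cast_pos.2 hq) 2
    have := (div_le_iff₀ hq0).1 (h p q hq)
    rw [div_lt_iff₀ hC] at hM
    by_contra! hlt
    have : (M : ℝ) ≤ digit x (n + 1) := by exact_mod_cast hlt.le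
    have h0 : (0 : ℝ) ≤ M := by nlinarith
    nlinarith
  · rintro ⟨M, hM⟩
    have hM1 : (1 : ℝ) ≤ M := by exact_mod_cast (one_le_digit hx 0).trans (hM 0)
    refine ⟨1 / (4 * (M + 1)), by positivity, fun p q hq => ?_⟩
    obtain ⟨n, -, hle⟩ := exists_index_bound hx hq p
    have hq0 : (0 : ℝ) < q := Nat.cast_pos.2 hq
    have : (digit x (n + 1) : ℝ) ≤ M := by exact_mod_cast hM n
    rw [sub_div' hq0.ne', abs_div, abs_of_pos hq0, mul_comm x, div_div,
      div_le_div_iff₀ (by positivity) hq0, one_mul]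
    have := abs_nonneg ((q : ℝ) * x - p)
    have := mul_nonneg (mul_nonneg hq0.le this) (sub_nonneg.2 ‹(digit x (n + 1) : ℝ) ≤ M›)
    nlinarith

/-- Irrational numbers have exponent at least two. -/
theorem liouvilleWith_two (hx : Irrational x) : LiouvilleWith 2 x := by
  refine ⟨2, Filter.frequently_atTop.2 fun N => ?_⟩
  obtain ⟨P, P', Q, Q', he, -, hQ, hQ', -, -, herr⟩ := contin_error hx (N + 1)
  have hN : (N : ℤ) + 1 ≤ Q := (contin_growth hx N he).2.2.2
  obtain ⟨q, rfl⟩ : ∃ q : ℕ, Q = q := ⟨Q.toNat, (Int.toNat_of_nonneg hQ.le).symm⟩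
  have hq : (0 : ℝ) < q := by exact_mod_cast hQ
  refine ⟨q, by omega, P, ?_, ?_⟩
  · exact_mod_cast hx.ne_rat (P / q)
  rw [rpow_two, sub_div' hq.ne', abs_div, abs_of_pos hq, div_lt_div_iff₀ hq (pow_pos hq 2)]
  rw [Int.cast_natCast] at herr
  have hu := one_lt_cq hx (N + 1)
  have cQ' : (0 : ℝ) ≤ Q' := Int.cast_nonneg hQ'
  have h : |x * q - P| * q ≤ 1 :=
    (mul_le_mul_of_nonneg_left (by nlinarith) (abs_nonneg _)).trans_eq herr
  nlinarith

/-- The digits of `e` grow linearly. -/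
theorem digit_exp_one_le (n : ℕ) : digit (exp 1) (n + 1) ≤ (n : ℤ) + 1 := by
  obtain ⟨m, rfl | rfl | rfl⟩ : ∃ m, n = 3 * m ∨ n = 3 * m + 1 ∨ n = 3 * m + 2 :=
    ⟨n / 3, by omega⟩
  · rw [(digit_exp_one.2 m).1]
    omega
  · rw [(digit_exp_one.2 m).2.1]
    omega
  · rw [(digit_exp_one.2 m).2.2]
    omega

theorem not_quadratic_exp_one : ¬IsQuadraticIrrational (exp 1) := by
  rw [← periodic_iff irrational_exp_one]
  rintro ⟨N, k, hk, h⟩
  have hrep : ∀ i n, N ≤ n → digit (exp 1) (n + i * k) = digit (exp 1) n := by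
    intro i
    induction i with
    | zero => simp
    | succ i ih =>
      intro n hn
      rw [show n + (i + 1) * k = n + i * k + k by ring, h _ (le_add_right hn), ih n hn]
  have := hrep 3 (3 * N + 2) (by omega)
  rw [show 3 * N + 2 + 3 * k = 3 * (N + k) + 2 by ring, (digit_exp_one.2 _).2.1,
    (digit_exp_one.2 _).2.1] at this
  omega

/-- **Effective bound.** -/
theorem exp_one_bound {q : ℕ} (hq : 0 < q) (p : ℤ) :
    1 / (4 * (q : ℝ) ^ 2 * (2 * Nat.log 2 q + 5)) ≤ |exp 1 - p / q| := by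
  obtain ⟨n, hn, hle⟩ := exists_index_bound irrational_exp_one hq p
  have hj : n / 2 ≤ Nat.log 2 q + 1 := by
    rw [← Nat.log_mul_base one_lt_two hq.ne']
    exact Nat.le_log_of_pow_le one_lt_two (by rwa [mul_comm])
  have ha : (digit (exp 1) (n + 1) : ℝ) + 1 ≤ 2 * Nat.log 2 q + 5 := by
    have := digit_exp_one_le n
    have : digit (exp 1) (n + 1) + 1 ≤ 2 * (Nat.log 2 q : ℤ) + 5 := by omega
    exact_mod_cast this
  have hq0 : (0 : ℝ) < q := Nat.cast_pos.2 hq
  rw [sub_div' hq0.ne', abs_div, abs_of_pos hq0, mul_comm (exp 1),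
    div_le_div_iff₀ (by positivity) hq0, one_mul]
  have h := mul_le_mul_of_nonneg_left ha
    (mul_nonneg hq0.le (abs_nonneg ((q : ℝ) * exp 1 - p)))
  nlinarith

/-- **The irrationality exponent is two.** -/
theorem not_liouvilleWith_exp_one {r : ℝ} (hr : 2 < r) : ¬LiouvilleWith r (exp 1) := by
  rintro ⟨C, hC⟩
  obtain ⟨δ, hδ, rfl⟩ : ∃ δ, 0 < δ ∧ r = 2 + 2 * δ := ⟨(r - 2) / 2, by linarith, by ring⟩
  have hlog2 : 0 < log 2 := log_pos one_lt_two
  set K := 2 / (δ * log 2) + 5 with hK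
  have hev : ∀ᶠ n : ℕ in Filter.atTop, 4 * K * max C 0 < (n : ℝ) ^ δ :=
    ((tendsto_rpow_atTop hδ).comp tendsto_natCast_atTop_atTop).eventually_gt_atTop _
  obtain ⟨n, ⟨m, -, hlt⟩, hgt, hn⟩ :=
    (hC.and_eventually (hev.and (Filter.eventually_gt_atTop 0))).exists
  have hn0 : (0 : ℝ) < n := Nat.cast_pos.2 hn
  have hb := exp_one_bound hn m
  have hl : (2 * Nat.log 2 n + 5 : ℝ) ≤ K * (n : ℝ) ^ δ := by
    have h1 : (Nat.log 2 n : ℝ) * log 2 ≤ log n := by
      rw [← log_pow]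
      exact log_le_log (by positivity) (by exact_mod_cast Nat.pow_log_le_self 2 hn.ne')
    have h2 : log n ≤ (n : ℝ) ^ δ / δ := log_le_rpow_div hn0.le hδ
    have h3 : 1 ≤ (n : ℝ) ^ δ := one_le_rpow (by exact_mod_cast hn) hδ.le
    rw [hK, add_mul, div_mul_eq_mul_div]
    refine add_le_add ?_ (by linarith)
    rw [le_div_iff₀ (mul_pos hδ hlog2)]
    have := (le_div_iff₀ hδ).1 (h1.trans h2)
    linarith
  have hpow : (n : ℝ) ^ (2 + 2 * δ) = (n : ℝ) ^ 2 * ((n : ℝ) ^ δ * (n : ℝ) ^ δ) := by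
    rw [rpow_add hn0, rpow_two, two_mul δ, rpow_add hn0]
  rw [hpow] at hlt
  have hD : 0 < (n : ℝ) ^ δ := rpow_pos_of_pos hn0 δ
  have hKpos : 0 < K := lt_of_lt_of_le (by positivity) hl |> (pos_of_mul_pos_left · hD.le)
  have h := hb.trans_lt hlt
  rw [div_lt_div_iff₀ (by positivity) (by positivity), one_mul] at h
  have h1 : C * (4 * (n : ℝ) ^ 2 * (2 * Nat.log 2 n + 5)) ≤
      max C 0 * (4 * (n : ℝ) ^ 2 * (K * (n : ℝ) ^ δ)) :=
    mul_le_mul (le_max_left _ _) (by nlinarith) (by positivity) (le_max_right _ _)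
  nlinarith [mul_lt_mul_of_pos_left hgt (mul_pos (pow_pos hn0 2) hD)]

end FA.EulerFraction

end
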