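import Fermat.Agent.PeriodicFractions.Serret
import Mathlib.Analysis.SpecialFunctions.ExpDeriv
import Mathlib.Analysis.SpecialFunctions.Integrals.Basic
import Mathlib.MeasureTheory.Integral.IntervalIntegral.IntegrationByParts

/-!
# The continued fraction of `e`

The positive integrals `∫ x ^ i (1 - x) ^ j e ^ x dx / n!` with `{i, j} ⊆ {n, n + 1}` satisfy the
three term recurrences with coefficients `1, 2 n, 1` (Hermite, Cohn), so their ratios are the
complete quotients of `e`.
-/

set_option autoImplicit false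

noncomputable section

open Real intervalIntegral
open FA.PeriodicFractions

namespace FA.EulerFraction

/-- `∫_0^1 x ^ i (1 - x) ^ j e ^ x`. -/
def hermiteInt (i j : ℕ) : ℝ := ∫ x in (0 : ℝ)..1, x ^ i * (1 - x) ^ j * exp x

/-- The three families. -/
def tailA (n : ℕ) : ℝ := hermiteInt n n / n.factorial
/-- The three families. -/
def tailB (n : ℕ) : ℝ := hermiteInt (n + 1) n / n.factorial
/-- The three families. -/
def tailC (n : ℕ) : ℝ := hermiteInt n (n + 1) / n.factorial

theorem intervalIntegrable_kernel (i j : ℕ) :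
    IntervalIntegrable (fun x : ℝ => x ^ i * (1 - x) ^ j * exp x) MeasureTheory.volume 0 1 :=
  (by fun_prop : Continuous fun x : ℝ => x ^ i * (1 - x) ^ j * exp x).intervalIntegrable 0 1

theorem hermiteInt_pos (i j : ℕ) : 0 < hermiteInt i j :=
  intervalIntegral_pos_of_pos_on (intervalIntegrable_kernel i j)
    (fun x hx => mul_pos (mul_pos (pow_pos hx.1 i) (pow_pos (by linarith [hx.2]) j)) (exp_pos x))
    zero_lt_one

theorem tail_pos (n : ℕ) : 0 < tailA n ∧ 0 < tailB n ∧ 0 < tailC n := by
  have h : (0 : ℝ) < n.factorial := Nat.cast_pos.2 n.factorial_pos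
  exact ⟨div_pos (hermiteInt_pos _ _) h, div_pos (hermiteInt_pos _ _) h,
    div_pos (hermiteInt_pos _ _) h⟩

theorem hermiteInt_split (i j : ℕ) :
    hermiteInt (i + 1) j + hermiteInt i (j + 1) = hermiteInt i j := by
  rw [hermiteInt, hermiteInt, hermiteInt, ← integral_add (intervalIntegrable_kernel _ _)
    (intervalIntegrable_kernel _ _)]
  refine integral_congr fun x _ => ?_
  ring

/-- Integration of the derivative of `x ^ (i + 1) (1 - x) ^ (j + 1) e ^ x`. -/
theorem hermiteInt_parts (i j : ℕ) :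
    ((i : ℝ) + 1) * hermiteInt i (j + 1) - ((j : ℝ) + 1) * hermiteInt (i + 1) j +
      hermiteInt (i + 1) (j + 1) = 0 := by
  have hd : ∀ x ∈ Set.uIcc (0 : ℝ) 1,
      HasDerivAt (fun x : ℝ => x ^ (i + 1) * (1 - x) ^ (j + 1) * exp x)
      (((i : ℝ) + 1) * (x ^ i * (1 - x) ^ (j + 1) * exp x) -
        ((j : ℝ) + 1) * (x ^ (i + 1) * (1 - x) ^ j * exp x) +
          x ^ (i + 1) * (1 - x) ^ (j + 1) * exp x) x := fun x _ => by
    have h := (((hasDerivAt_id x).pow (i + 1)).mul
      (((hasDerivAt_id x).const_sub 1).pow (j + 1))).mul (hasDerivAt_exp x)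
    refine h.congr_deriv ?_
    simp only [id_eq, Pi.mul_apply, Pi.pow_apply, Nat.cast_add, Nat.cast_one, Nat.add_sub_cancel,
      mul_one]
    ring
  have h1 := (intervalIntegrable_kernel i (j + 1)).const_mul ((i : ℝ) + 1)
  have h2 := (intervalIntegrable_kernel (i + 1) j).const_mul ((j : ℝ) + 1)
  have h := integral_eq_sub_of_hasDerivAt hd ((h1.sub h2).add (intervalIntegrable_kernel _ _))
  rw [integral_add (h1.sub h2) (intervalIntegrable_kernel _ _), integral_sub h1 h2,
    intervalIntegral.integral_const_mul, intervalIntegral.integral_const_mul] at h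
  simpa [hermiteInt] using h

theorem rec_b (n : ℕ) : tailB n = tailC n + tailA (n + 1) := by
  have h := hermiteInt_parts n n
  rw [tailB, tailC, tailA, Nat.factorial_succ]
  push_cast
  have : (n.factorial : ℝ) ≠ 0 := Nat.cast_ne_zero.2 n.factorial_ne_zero
  field_simp
  linear_combination -h

theorem rec_a (n : ℕ) : tailA n = tailB n + tailC n := by
  rw [tailA, tailB, tailC, ← add_div, hermiteInt_split]

theorem rec_c (n : ℕ) : tailC n = 2 * ((n : ℝ) + 1) * tailA (n + 1) + tailB (n + 1) := by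
  have h := hermiteInt_parts n (n + 1)
  have s1 := hermiteInt_split n (n + 1)
  have s2 := hermiteInt_split (n + 1) (n + 1)
  rw [tailC, tailA, tailB, Nat.factorial_succ]
  push_cast at h ⊢
  have : (n.factorial : ℝ) ≠ 0 := Nat.cast_ne_zero.2 n.factorial_ne_zero
  field_simp
  linear_combination h - ((n : ℝ) + 1) * s1 - s2

theorem tail_zero : tailB 0 = 1 ∧ tailC 0 = exp 1 - 2 := by
  have h1 : tailA 0 = exp 1 - 1 := by simp [tailA, hermiteInt]
  have h2 : tailB 0 = 1 := by
    have hd : ∀ x ∈ Set.uIcc (0 : ℝ) 1, HasDerivAt (fun x : ℝ => (x - 1) * exp x) (x * exp x) x :=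
      fun x _ => by
        have := ((hasDerivAt_id x).sub_const 1).mul (hasDerivAt_exp x)
        refine this.congr_deriv ?_
        simp only [id_eq]
        ring
    have h := integral_eq_sub_of_hasDerivAt hd
      ((by fun_prop : Continuous fun x : ℝ => x * exp x).intervalIntegrable 0 1)
    simpa [tailB, hermiteInt] using h
  have h3 := rec_a 0
  exact ⟨h2, by linarith⟩

theorem lt_of_recurrences (n : ℕ) :
    tailC n < tailB n ∧ tailA (n + 1) < tailC n ∧ tailB (n + 1) < tailA (n + 1) := by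
  obtain ⟨a1, b1, c1⟩ := tail_pos (n + 1)
  have := rec_b n
  have := rec_c n
  have := rec_a (n + 1)
  have : tailA (n + 1) ≤ 2 * ((n : ℝ) + 1) * tailA (n + 1) :=
    le_mul_of_one_le_left a1.le (by linarith [Nat.cast_nonneg (α := ℝ) n])
  exact ⟨by linarith, by linarith, by linarith⟩

/-- **The complete quotients of `e`.** -/
theorem cq_exp_one : ∀ m : ℕ, cq (exp 1) (3 * m + 1) = tailB m / tailC m := by
  intro m
  induction m with
  | zero =>
    obtain ⟨h1, h2⟩ := tail_zero
    have hlt := (lt_of_recurrences 0).1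
    have hc := (tail_pos 0).2.2
    refine (cq_step (ξ := exp 1) (n := 0) (a := 2) ((one_lt_div hc).2 hlt) ?_).2
    rw [one_div_div, h1, h2, cq, div_one]
    push_cast
    ring
  | succ m ih =>
    obtain ⟨l1, l2, l3⟩ := lt_of_recurrences m
    obtain ⟨a1, b1, c1⟩ := tail_pos (m + 1)
    obtain ⟨-, -, c0⟩ := tail_pos m
    obtain ⟨-, s1⟩ := cq_step (ξ := exp 1) (n := 3 * m + 1) (a := 1)
      (u := tailC m / tailA (m + 1)) ((one_lt_div a1).2 l2) (by
        rw [ih, one_div_div, rec_b m]
        push_cast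
        field_simp)
    obtain ⟨-, s2⟩ := cq_step (ξ := exp 1) (n := 3 * m + 1 + 1) (a := 2 * ((m : ℤ) + 1))
      (u := tailA (m + 1) / tailB (m + 1)) ((one_lt_div b1).2 l3) (by
        rw [s1, one_div_div, rec_c m]
        push_cast
        field_simp)
    obtain ⟨-, s3⟩ := cq_step (ξ := exp 1) (n := 3 * m + 1 + 1 + 1) (a := 1)
      (u := tailB (m + 1) / tailC (m + 1)) ((one_lt_div c1).2 (lt_of_recurrences (m + 1)).1) (by
        rw [s2, one_div_div, rec_a (m + 1)]
        push_cast
        field_simp)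
    exact s3

/-- **The digits of `e`.** -/
theorem digit_exp_one : digit (exp 1) 0 = 2 ∧ ∀ m : ℕ, digit (exp 1) (3 * m + 1) = 1 ∧
    digit (exp 1) (3 * m + 2) = 2 * ((m : ℤ) + 1) ∧ digit (exp 1) (3 * m + 3) = 1 := by
  refine ⟨?_, fun m => ?_⟩
  · obtain ⟨h1, h2⟩ := tail_zero
    refine (cq_step (ξ := exp 1) (n := 0) (a := 2)
      ((one_lt_div (tail_pos 0).2.2).2 (lt_of_recurrences 0).1) ?_).1
    rw [one_div_div, h1, h2, cq, div_one]
    push_cast
    ring
  obtain ⟨l1, l2, l3⟩ := lt_of_recurrences m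
  obtain ⟨a1, b1, c1⟩ := tail_pos (m + 1)
  obtain ⟨-, -, c0⟩ := tail_pos m
  obtain ⟨d1, s1⟩ := cq_step (ξ := exp 1) (n := 3 * m + 1) (a := 1)
    (u := tailC m / tailA (m + 1)) ((one_lt_div a1).2 l2) (by
      rw [cq_exp_one, one_div_div, rec_b m]
      push_cast
      field_simp)
  obtain ⟨d2, s2⟩ := cq_step (ξ := exp 1) (n := 3 * m + 1 + 1) (a := 2 * ((m : ℤ) + 1))
    (u := tailA (m + 1) / tailB (m + 1)) ((one_lt_div b1).2 l3) (by
      rw [s1, one_div_div, rec_c m]
      push_cast
      field_simp)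
  obtain ⟨d3, -⟩ := cq_step (ξ := exp 1) (n := 3 * m + 1 + 1 + 1) (a := 1)
    (u := tailB (m + 1) / tailC (m + 1)) ((one_lt_div c1).2 (lt_of_recurrences (m + 1)).1) (by
      rw [s2, one_div_div, rec_a (m + 1)]
      push_cast
      field_simp)
  exact ⟨d1, d2, d3⟩

theorem irrational_exp_one : Irrational (exp 1) := by
  rintro ⟨r, hr⟩
  have hq : (0 : ℝ) < r.den := Nat.cast_pos.2 r.den_pos
  have hd : exp 1 * r.den = r.num := by
    rw [← hr]
    exact_mod_cast Rat.mul_den_eq_num r
  obtain ⟨h1, h2⟩ := tail_zero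
  have hint : ∀ m : ℕ, ∃ z w : ℤ, (z : ℝ) = tailB m * r.den ∧ (w : ℝ) = tailC m * r.den := by
    intro m
    induction m with
    | zero =>
      refine ⟨r.den, r.num - 2 * r.den, by rw [h1, one_mul, Int.cast_natCast], ?_⟩
      rw [h2, sub_mul, hd]
      push_cast
      ring
    | succ m ih =>
      obtain ⟨z, w, hz, hw⟩ := ih
      refine ⟨w - 2 * ((m : ℤ) + 1) * (z - w),
        z - w - (w - 2 * ((m : ℤ) + 1) * (z - w)), ?_, ?_⟩
      · push_cast
        rw [hz, hw, rec_b m, rec_c m]
        ring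
      · push_cast
        rw [hz, hw, rec_b m, rec_c m, rec_a (m + 1)]
        ring
  have hdec : ∀ m : ℕ, ∀ z : ℤ, (z : ℝ) = tailB m * r.den → z + m ≤ r.den := by
    intro m
    induction m with
    | zero =>
      intro z hz
      rw [h1, one_mul] at hz
      have : z = r.den := by exact_mod_cast hz
      omega
    | succ m ih =>
      intro z hz
      obtain ⟨z', w, hz', -⟩ := hint m
      have := ih z' hz'
      obtain ⟨l1, l2, l3⟩ := lt_of_recurrences m
      have hlt : (z : ℝ) < z' := by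
        rw [hz, hz']
        exact mul_lt_mul_of_pos_right (by linarith) hq
      have : z < z' := by exact_mod_cast hlt
      push_cast
      omega
  obtain ⟨z, -, hz, -⟩ := hint (r.den + 1)
  have h := hdec _ z hz
  have : (0 : ℝ) < z := hz ▸ mul_pos (tail_pos _).2.1 hq
  have : 0 < z := by exact_mod_cast this
  push_cast at h
  omega

end FA.EulerFraction

end
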